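import Fermat.Agent.H27.KLGB.ModelTower
import Fermat.Agent.H91.ES1KL.BasicGen
import Fermat.Agent.H29.ES1.Hecke
import Fermat.Agent.H29.ES1.Defs
import Fermat.Agent.H57.ES1.GaussNormalForm1
import Fermat.Agent.H1.ESD.T3Rat
import Fermat.Agent.H17.ESD.T2Model

/-!
# P-DS / ES1-KL, milestone 2 (`ℓ = 2, 3`), helper21: change of chart, GENERIC in the level field

* `modelGoodBasisGen_of_rel` : the good basis in the chart `t₀` (`j t₀^e = R(t₀)`) from the good
  basis in the chart `j`, for every level field `F₀` (port of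
  `Fermat.Agent.H27.KLGB.modelGoodBasis_of_rel`).
* `modelGoodBasisGen_t2` (`ℓ ≠ 2`), `modelGoodBasisGen_t3` (`ℓ ≠ 3`).
-/

set_option autoImplicit false
set_option linter.style.haveILetI false
set_option synthInstance.maxHeartbeats 400000
set_option maxHeartbeats 1000000

noncomputable section

open ModularCurve Polynomial Fermat.Agent.H27 IntermediateField
open Fermat.Agent.H22.KL Fermat.Agent.H67.KLConn Fermat.Agent.H91.ES1KL

namespace Fermat.Agent.H21.Es1Kl

/-- **KL-GB, tower form, generic level field**: a Hauptmodul `t₀` with `j t₀^e = R(t₀)`. -/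
theorem modelGoodBasisGen_of_rel (F₀ : IntermediateField ℚ (LaurentSeries ℚ)) (hj : jq ∈ F₀)
    (ℓ : ℕ) (hl : ℓ.Prime)
    (t₀ : LaurentSeries ℤ) (R : Polynomial ℤ) (e : ℕ) (hR : R.Monic) (he1 : 1 ≤ e)
    (he : e < R.natDegree) (hR0 : ¬ (ℓ : ℤ) ∣ R.coeff 0)
    (hrel : jqModC ℤ * t₀ ^ e = Polynomial.aeval t₀ R)
    (hGB : ModelGoodBasisGen F₀ ℓ jq) :
    ModelGoodBasisGen F₀ ℓ (coeffMap (Int.castRingHom ℚ) t₀) := by
  classical
  intro K₁ _ _ _ A₀ _ _ _ _ _ _ _ hℓ ϖ hϖ x hx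
  haveI : CharZero K₁ := algebraRat.charZero K₁
  haveI : CharZero (ModelFieldGen K₁ F₀) :=
    charZero_of_injective_algebraMap (algebraMap K₁ (ModelFieldGen K₁ F₀)).injective
  set ι : ModelFieldGen K₁ F₀ →+* LaurentSeries K₁ :=
    algebraMap (ModelFieldGen K₁ F₀) (LaurentSeries K₁) with hι
  have hιinj : Function.Injective ι := FaithfulSMul.algebraMap_injective _ _
  -- `j` in the model field
  have hjmem : coeffEmb K₁ jq ∈ laurentBaseChange K₁ F₀ :=
    coeffEmb_mem_laurentBaseChange K₁ hj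
  set jE : ModelFieldGen K₁ F₀ := ⟨coeffEmb K₁ jq, hjmem⟩ with hjE
  have hGBj : GoodBasis A₀ (ModelFieldGen K₁ F₀) ϖ jE :=
    hGB K₁ A₀ hℓ ϖ hϖ jE rfl
  have hιj : ι jE = jqModC K₁ := Fermat.Agent.H27.KLGB.coeffEmb_jq K₁
  have hιx : ι x = coeffMap (Int.castRingHom K₁) t₀ := by
    show (x : LaurentSeries K₁) = _
    rw [hx, Fermat.Agent.H27.KLGB.coeffEmb_coeffMap_int]
  -- the relation in the model field
  have hcomp : (ι.comp (algebraMap A₀ (ModelFieldGen K₁ F₀))).comp (Int.castRingHom A₀) =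
      (coeffMap (Int.castRingHom K₁)).comp (algebraMap ℤ (LaurentSeries ℤ)) :=
    RingHom.ext_int _ _
  have hrelE : jE * x ^ e = Polynomial.aeval x (R.map (Int.castRingHom A₀)) := by
    apply hιinj
    rw [map_mul, map_pow, hιj, hιx, Polynomial.aeval_def, Polynomial.hom_eval₂,
      Polynomial.eval₂_map, hιx, hcomp]
    have h1 := congrArg (coeffMap (Int.castRingHom K₁)) hrel
    rw [map_mul, map_pow, coeffMap_jqModC, Polynomial.aeval_def, Polynomial.hom_eval₂] at h1
    exact h1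
  have hx0 : x ≠ 0 := by
    intro h0
    rw [h0, zero_pow (by omega : e ≠ 0), mul_zero, ← Polynomial.coeff_zero_eq_aeval_zero',
      Polynomial.coeff_map] at hrelE
    have hu : IsUnit ((Int.castRingHom A₀) (R.coeff 0)) :=
      Fermat.Agent.H27.KLGB.isUnit_intCast_of_not_dvd ℓ hl hℓ _ hR0
    have h2 : algebraMap A₀ (ModelFieldGen K₁ F₀) ((Int.castRingHom A₀) (R.coeff 0)) ≠ 0 :=
      (hu.map (algebraMap A₀ (ModelFieldGen K₁ F₀))).ne_zero
    exact h2 hrelE.symm
  -- transcendence of `x`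
  have hjtr : Transcendental A₀ jE := modelTranscendentalGen_jq F₀ K₁ A₀ jE rfl
  have hxtr : Transcendental A₀ x := by
    intro halg
    apply hjtr
    have halgK : IsAlgebraic K₁ x := (IsFractionRing.isAlgebraic_iff A₀ K₁ _).mp halg
    have hxm : x ∈ algebraicClosure K₁ (ModelFieldGen K₁ F₀) :=
      mem_algebraicClosure_iff.mpr halgK
    have hjm : jE ∈ algebraicClosure K₁ (ModelFieldGen K₁ F₀) := by
      have h1 : jE = Polynomial.aeval x (R.map (Int.castRingHom A₀)) / x ^ e := by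
        rw [← hrelE, mul_div_assoc, div_self (pow_ne_zero e hx0), mul_one]
      rw [h1]
      refine div_mem ?_ (pow_mem hxm e)
      have h2 := IntermediateField.aeval_coe (algebraicClosure K₁ (ModelFieldGen K₁ F₀))
        (⟨x, hxm⟩ : ↥(algebraicClosure K₁ (ModelFieldGen K₁ F₀))) (R.map (Int.castRingHom A₀))
      have h3 : Polynomial.aeval x (R.map (Int.castRingHom A₀)) =
          ((Polynomial.aeval (⟨x, hxm⟩ : ↥(algebraicClosure K₁ (ModelFieldGen K₁ F₀)))
            (R.map (Int.castRingHom A₀)) : ↥(algebraicClosure K₁ (ModelFieldGen K₁ F₀))) :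
              ModelFieldGen K₁ F₀) := h2
      rw [h3]
      exact Subtype.property _
    exact (IsFractionRing.isAlgebraic_iff A₀ K₁ _).mpr (mem_algebraicClosure_iff.mp hjm)
  exact Fermat.Agent.H35.KLGB.goodBasis_tower A₀ (ModelFieldGen K₁ F₀) ϖ hϖ jE x hxtr
    (R.map (Int.castRingHom A₀)) e (hR.map _) he1 (by rwa [hR.natDegree_map])
    (by
      rw [Polynomial.coeff_map]
      exact Fermat.Agent.H27.KLGB.isUnit_intCast_of_not_dvd ℓ hl hℓ _ hR0)
    hrelE hGBj

/-- **KL-GB for `x = t₂`, generic level field**: every prime `ℓ ≠ 2`. -/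
theorem modelGoodBasisGen_t2 (F₀ : IntermediateField ℚ (LaurentSeries ℚ)) (hj : jq ∈ F₀)
    (ℓ : ℕ) (hl : ℓ.Prime) (h2 : ℓ ≠ 2) (hGB : ModelGoodBasisGen F₀ ℓ jq) :
    ModelGoodBasisGen F₀ ℓ (Fermat.Agent.H17.ESD.t2S ℚ) := by
  have h := modelGoodBasisGen_of_rel F₀ hj ℓ hl (Fermat.Agent.H17.ESD.t2S ℤ)
    ((Polynomial.X + Polynomial.C 256) ^ 3) 2 ((Polynomial.monic_X_add_C 256).pow 3)
    (by norm_num)
    (by rw [(Polynomial.monic_X_add_C (256 : ℤ)).natDegree_pow,
          Polynomial.natDegree_X_add_C]; norm_num)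
    (by
      rw [Polynomial.coeff_zero_eq_eval_zero]
      simp only [Polynomial.eval_pow, Polynomial.eval_add, Polynomial.eval_X,
        Polynomial.eval_C, zero_add]
      have h3 := Fermat.Agent.H27.KLGB.not_dvd_pow_of_prime_ne hl Nat.prime_two h2 24
      norm_num at h3 ⊢
      exact h3)
    (by
      rw [Fermat.Agent.H17.ESD.t2S_identity ℤ]
      simp only [map_pow, map_add, Polynomial.aeval_X, map_ofNat])
    hGB
  rwa [Fermat.Agent.H17.ESD.coeffMap_t2S] at h

/-- **KL-GB for `x = t₃`, generic level field**: every prime `ℓ ≠ 3`. -/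
theorem modelGoodBasisGen_t3 (F₀ : IntermediateField ℚ (LaurentSeries ℚ)) (hj : jq ∈ F₀)
    (ℓ : ℕ) (hl : ℓ.Prime) (h3 : ℓ ≠ 3) (hGB : ModelGoodBasisGen F₀ ℓ jq) :
    ModelGoodBasisGen F₀ ℓ (Fermat.Agent.H1.ESD.t3 ℚ) := by
  have hm : ((Polynomial.X + Polynomial.C 27) * (Polynomial.X + Polynomial.C 243) ^ 3 :
      Polynomial ℤ).Monic :=
    (Polynomial.monic_X_add_C 27).mul ((Polynomial.monic_X_add_C 243).pow 3)
  have hdeg : ((Polynomial.X + Polynomial.C 27) * (Polynomial.X + Polynomial.C 243) ^ 3 :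
      Polynomial ℤ).natDegree = 4 := by
    rw [(Polynomial.monic_X_add_C (27 : ℤ)).natDegree_mul
      ((Polynomial.monic_X_add_C (243 : ℤ)).pow 3),
      (Polynomial.monic_X_add_C (243 : ℤ)).natDegree_pow, Polynomial.natDegree_X_add_C,
      Polynomial.natDegree_X_add_C]
  have h := modelGoodBasisGen_of_rel F₀ hj ℓ hl (Fermat.Agent.H1.ESD.t3 ℤ)
    ((Polynomial.X + Polynomial.C 27) * (Polynomial.X + Polynomial.C 243) ^ 3) 3 hm
    (by norm_num) (by rw [hdeg]; norm_num)
    (by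
      rw [Polynomial.coeff_zero_eq_eval_zero]
      simp only [Polynomial.eval_mul, Polynomial.eval_pow, Polynomial.eval_add,
        Polynomial.eval_X, Polynomial.eval_C, zero_add]
      have h4 := Fermat.Agent.H27.KLGB.not_dvd_pow_of_prime_ne hl Nat.prime_three h3 18
      norm_num at h4 ⊢
      exact h4)
    (by
      rw [Fermat.Agent.H1.ESD.t3_rel ℤ]
      simp only [map_mul, map_pow, map_add, Polynomial.aeval_X, map_ofNat])
    hGB
  rwa [Fermat.Agent.H1.ESD.coeffMap_t3] at h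

end Fermat.Agent.H21.Es1Kl

end
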