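import Fermat.Agent.H91.ES1KL.Interfaces1
import Fermat.Agent.H29.ES1.Hecke
import Fermat.Agent.H1.ESD.T3Rat
import Fermat.Agent.H17.ESD.T2Model

/-!
# P-DS / ES1-KL, milestone 2 (`ℓ = 2, 3`), helper21: exact statements of the open rows

Targets (see `Fermat.Agent.H29.ES1.keyLemma1_of_cases`):
`KeyLemmaGenStatement (heckeField (F1 M) 3) 2` (`M` prime to `6`), `KeyLemmaGenStatement (F1 M) 2`
(`3 ∣ M`, `M` odd), and the twins at `ℓ = 3` (chart `t₂`).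

Everything is reduced (module `Fermat.Agent.H21.Es1Kl.Two`) to `Gb1Statement` (row 808) and the
two statements below, both GENERIC (they serve `ℓ = 2` and `ℓ = 3`):

* `HeckeFieldSimpleStatement` (row ES1-KL-HF): the Hecke level field `F1 M · V_p(F1 M)` is
  generated over `F1 M` by `j(q^p)`;
* `GbAdjoinT3Statement`, `GbAdjoinT2Statement` (row ES1-KL-GBT): a good basis in the chart `j`
  of a level field `F₀ ∋ j` gives a good basis in the chart `j` of `F₀(t₃)` (`ℓ ≠ 3`),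
  resp. `F₀(t₂)` (`ℓ ≠ 2`).
-/

set_option autoImplicit false

noncomputable section

namespace Fermat.Agent.H21.Es1Kl

open Polynomial ModularCurve AlgebraicCurve
open Fermat.Agent.H22.KL Fermat.Agent.H29.ES1 Fermat.Agent.H91.ES1KL

/-- **ES1-KL-HF**: for `p ∤ M` prime the Hecke level field `heckeField (F1 M) p`
(`= F1 M · V_p(F1 M)`, the function field of `Γ₁(M) ∩ Γ₀(p)`) is generated over `F1 M` by
`j(q^p)`.

Proof sketch: `L := F1 M ⊔ ℚ(j(q^p)) ≤ H := heckeField (F1 M) p`.  Over `ℚ̄`: the `p + 1`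
embeddings of `ℚ̄ · H` over `ℚ̄ · F1 M` of `Fermat.Agent.H29.ES1.heckeDegree1_ge` are pairwise
distinct already at `j(q^p) ∈ ℚ̄ · L`, so `[ℚ̄ L : ℚ̄ F1] ≥ p + 1 = [ℚ̄ H : ℚ̄ F1]`
(`heckeDegreeEq1`) and `ℚ̄ L = ℚ̄ H`; then `g ∈ H` has rational coefficients and lies in
`ℚ̄ · L`, hence `g ∈ L` (`Fermat.Agent.H23.MWE.FixedStatement`, landed by helper69). -/
def HeckeFieldSimpleStatement : Prop :=
  ∀ (M : ℕ) [NeZero M], 5 ≤ M → ∀ (p : ℕ) [NeZero p], p.Prime → ¬ p ∣ M →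
    heckeField (F1 M) p = F1 M ⊔ IntermediateField.adjoin ℚ {qExpand ℚ p jq}

/-- **ES1-KL-GBT (`t₃`)**: if the level field `F₀ ∋ j` has a good basis in the chart `j` at the
prime `ℓ ≠ 3`, so has `F₀(t₃)`.

Proof sketch: `Fermat.Agent.H74.ES1KL.simpleGoodBasis'` with `E₀ = K₁ · F₀`,
`E = K₁ · F₀(t₃) = E₀(t₃)`, `v = t₃`, a root of the monic quartic
`P₃ = (Y + 27) (Y + 243)³ - j Y³ ∈ ℤ[j][Y]`, `d = Res_Y(P₃, P₃') = - 3³⁹ j² (j - 1728)²`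
(not divisible by `ℓ` in `ℤ[j]`), `d = B(t₃) P₃'(t₃)` with `B ∈ ℤ[j][Y]` (Bezout), and
`P₃'(t₃) / m'(t₃) = g(t₃)`, `P₃ = m g`, `m` the minimal polynomial over `E₀`, `g` monic with
coefficients integral over `A₀[j]` (`minpoly.isIntegrallyClosed_dvd`). -/
def GbAdjoinT3Statement : Prop :=
  ∀ (F₀ : IntermediateField ℚ (LaurentSeries ℚ)), jq ∈ F₀ →
    ∀ ℓ : ℕ, ℓ.Prime → ℓ ≠ 3 → ModelGoodBasisGen F₀ ℓ jq →
      ModelGoodBasisGen (F₀ ⊔ IntermediateField.adjoin ℚ {Fermat.Agent.H1.ESD.t3 ℚ}) ℓ jq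

/-- **ES1-KL-GBT (`t₂`)**: the same for `t₂`, `ℓ ≠ 2`
(`P₂ = (Y + 256)³ - j Y²`, `Res_Y(P₂, P₂') = - 2²⁶ j² (j - 1728)`). -/
def GbAdjoinT2Statement : Prop :=
  ∀ (F₀ : IntermediateField ℚ (LaurentSeries ℚ)), jq ∈ F₀ →
    ∀ ℓ : ℕ, ℓ.Prime → ℓ ≠ 2 → ModelGoodBasisGen F₀ ℓ jq →
      ModelGoodBasisGen (F₀ ⊔ IntermediateField.adjoin ℚ {Fermat.Agent.H17.ESD.t2S ℚ}) ℓ jq

end Fermat.Agent.H21.Es1Kl

end
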